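/-
Multi-generator Kummer theory (leaf KUM of row S55), Mathlib only.

`K` is a field containing a primitive `n`-th root of unity (`[HasEnoughRootsOfUnity K n]`),
`M / K` a field extension.

* `kummerSubgroup K M n : Subgroup Kˣ` : the units of `K` which become `n`-th powers in `M`.
* `powSubgroup K n : Subgroup Kˣ` : the `n`-th powers `Kˣ ^ n`.
* `kummerPairing K M n : Gal(M/K) →* (kummerSubgroup K M n →* rootsOfUnity n K)`,
  `(σ, a) ↦ σ(α)/α` where `α ^ n = a`.
-/
import Mathlib

set_option autoImplicit false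

namespace Fermat.Agent.S55.H361

open IntermediateField Polynomial

section Defs

variable (K M : Type*) [Field K] [Field M] [Algebra K M] (n : ℕ)

/-- The subgroup `Kˣ ^ n` of `n`-th powers. -/
def powSubgroup : Subgroup Kˣ := (powMonoidHom n : Kˣ →* Kˣ).range

/-- The Kummer subgroup of `M / K`: the units of `K` that become `n`-th powers in `M`. -/
def kummerSubgroup : Subgroup Kˣ :=
  (powMonoidHom n : Mˣ →* Mˣ).range.comap (Units.map (algebraMap K M : K →* M))

variable {K M n}

theorem mem_powSubgroup_iff {a : Kˣ} : a ∈ powSubgroup K n ↔ ∃ b : Kˣ, b ^ n = a := Iff.rfl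

theorem mem_powSubgroup_iff' {a : Kˣ} : a ∈ powSubgroup K n ↔ ∃ b : K, b ^ n = a := by
  constructor
  · rintro ⟨b, rfl⟩
    exact ⟨b, by simp⟩
  · rintro ⟨b, hb⟩
    by_cases hb0 : b = 0
    · subst hb0
      refine ⟨1, Units.ext ?_⟩
      rcases Nat.eq_zero_or_pos n with hn | hn
      · subst hn
        simpa using hb
      · rw [zero_pow hn.ne'] at hb
        exact absurd hb.symm a.ne_zero
    · exact ⟨Units.mk0 b hb0, Units.ext (by simpa using hb)⟩

theorem mem_kummerSubgroup_iff {a : Kˣ} :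
    a ∈ kummerSubgroup K M n ↔ ∃ β : Mˣ, β ^ n = Units.map (algebraMap K M : K →* M) a :=
  Iff.rfl

theorem mem_kummerSubgroup_iff' {a : Kˣ} :
    a ∈ kummerSubgroup K M n ↔ ∃ β : M, β ^ n = algebraMap K M a := by
  constructor
  · rintro ⟨β, hβ⟩
    refine ⟨β, ?_⟩
    have := congrArg Units.val hβ
    simpa using this
  · rintro ⟨β, hβ⟩
    by_cases hb0 : β = 0
    · subst hb0
      refine ⟨1, Units.ext ?_⟩
      rcases Nat.eq_zero_or_pos n with hn | hn
      · subst hn
        simpa using hβ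
      · rw [zero_pow hn.ne'] at hβ
        have h0 : algebraMap K M a ≠ 0 := by
          simpa using a.ne_zero
        exact absurd hβ.symm h0
    · exact ⟨Units.mk0 β hb0, Units.ext (by simpa using hβ)⟩

theorem powSubgroup_le_kummerSubgroup : powSubgroup K n ≤ kummerSubgroup K M n := by
  rintro a ⟨b, rfl⟩
  exact ⟨Units.map (algebraMap K M : K →* M) b, by simp [map_pow]⟩

theorem pow_mem_powSubgroup (a : Kˣ) : a ^ n ∈ powSubgroup K n := ⟨a, rfl⟩

end Defs

section Pairing

variable {K M : Type*} [Field K] [Field M] [Algebra K M] {n : ℕ} [NeZero n]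
  [HasEnoughRootsOfUnity K n]

/-- Every `n`-th root of unity of `M` comes from `K`. -/
theorem exists_rootsOfUnity_eq_of_pow_eq_one {η : M} (hη : η ^ n = 1) :
    ∃ ζ : rootsOfUnity n K, algebraMap K M ((ζ : Kˣ) : K) = η := by
  obtain ⟨ζ₀, hζ₀⟩ := HasEnoughRootsOfUnity.exists_primitiveRoot K n
  have hM : IsPrimitiveRoot (algebraMap K M ζ₀) n :=
    hζ₀.map_of_injective (algebraMap K M).injective
  obtain ⟨i, -, hi⟩ := hM.eq_pow_of_pow_eq_one hη
  have hu : IsUnit ζ₀ := hζ₀.isUnit (NeZero.ne n)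
  refine ⟨⟨hu.unit ^ i, ?_⟩, ?_⟩
  · rw [mem_rootsOfUnity]
    ext
    simp only [Units.val_pow_eq_pow_val, IsUnit.unit_spec, Units.val_one]
    rw [← pow_mul, mul_comm, pow_mul, hζ₀.pow_eq_one, one_pow]
  · simp [← hi]

/-- For `σ ∈ Gal(M/K)` and `a` in the Kummer subgroup there is an `n`-th root of unity `ζ ∈ K`
with `σ β = ζ β` for every `n`-th root `β` of `a` in `M`. -/
theorem exists_kummer_root (σ : M ≃ₐ[K] M) {a : Kˣ} (ha : a ∈ kummerSubgroup K M n) :
    ∃ ζ : rootsOfUnity n K, ∀ β : M, β ^ n = algebraMap K M a →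
      σ β = algebraMap K M ((ζ : Kˣ) : K) * β := by
  obtain ⟨α, hα⟩ := mem_kummerSubgroup_iff'.1 ha
  have ha0 : algebraMap K M a ≠ 0 := by simpa using a.ne_zero
  have hα0 : α ≠ 0 := by
    rintro rfl
    rw [zero_pow (NeZero.ne n)] at hα
    exact ha0 hα.symm
  have h1 : (σ α / α) ^ n = 1 := by
    rw [div_pow, ← map_pow, hα, AlgEquiv.commutes, div_self ha0]
  obtain ⟨ζ, hζ⟩ := exists_rootsOfUnity_eq_of_pow_eq_one (K := K) h1
  refine ⟨ζ, fun β hβ => ?_⟩
  have h2 : (β / α) ^ n = 1 := by
    rw [div_pow, hβ, hα, div_self ha0]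
  obtain ⟨η, hη⟩ := exists_rootsOfUnity_eq_of_pow_eq_one (K := K) h2
  have hβ' : β = algebraMap K M ((η : Kˣ) : K) * α := by
    rw [hη]; field_simp
  have hσα : σ α = algebraMap K M ((ζ : Kˣ) : K) * α := by
    rw [hζ]; field_simp
  rw [hβ', map_mul, AlgEquiv.commutes, hσα]
  ring

variable (K M n) in
/-- The Kummer pairing as a function: `kummerRoot σ a = σ(α)/α` where `α ^ n = a`. -/
noncomputable def kummerRoot (σ : M ≃ₐ[K] M) (a : kummerSubgroup K M n) : rootsOfUnity n K :=
  Classical.choose (exists_kummer_root σ a.2)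

theorem kummerRoot_spec (σ : M ≃ₐ[K] M) (a : kummerSubgroup K M n) {β : M}
    (hβ : β ^ n = algebraMap K M ((a : Kˣ) : K)) :
    σ β = algebraMap K M ((kummerRoot K M n σ a : Kˣ) : K) * β :=
  Classical.choose_spec (exists_kummer_root σ a.2) β hβ

theorem kummerRoot_eq_of (σ : M ≃ₐ[K] M) (a : kummerSubgroup K M n) {β : M}
    (hβ : β ^ n = algebraMap K M ((a : Kˣ) : K)) {ζ : rootsOfUnity n K}
    (h : σ β = algebraMap K M ((ζ : Kˣ) : K) * β) : kummerRoot K M n σ a = ζ := by
  have ha0 : algebraMap K M ((a : Kˣ) : K) ≠ 0 := by simpa using (a : Kˣ).ne_zero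
  have hβ0 : β ≠ 0 := by
    rintro rfl
    rw [zero_pow (NeZero.ne n)] at hβ
    exact ha0 hβ.symm
  have := kummerRoot_spec σ a hβ
  rw [h] at this
  have h3 := mul_right_cancel₀ hβ0 this
  have h4 := (algebraMap K M).injective h3
  exact (Subtype.ext (Units.ext h4)).symm

theorem kummerRoot_eq_iff (σ : M ≃ₐ[K] M) (a : kummerSubgroup K M n) {β : M}
    (hβ : β ^ n = algebraMap K M ((a : Kˣ) : K)) {ζ : rootsOfUnity n K} :
    kummerRoot K M n σ a = ζ ↔ σ β = algebraMap K M ((ζ : Kˣ) : K) * β :=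
  ⟨fun h => h ▸ kummerRoot_spec σ a hβ, kummerRoot_eq_of σ a hβ⟩

theorem kummerRoot_eq_one_iff (σ : M ≃ₐ[K] M) (a : kummerSubgroup K M n) {β : M}
    (hβ : β ^ n = algebraMap K M ((a : Kˣ) : K)) :
    kummerRoot K M n σ a = 1 ↔ σ β = β := by
  rw [kummerRoot_eq_iff σ a hβ]
  simp

theorem exists_root_of_mem (a : kummerSubgroup K M n) :
    ∃ β : M, β ^ n = algebraMap K M ((a : Kˣ) : K) :=
  mem_kummerSubgroup_iff'.1 a.2

theorem kummerRoot_mul_right (σ : M ≃ₐ[K] M) (a b : kummerSubgroup K M n) :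
    kummerRoot K M n σ (a * b) = kummerRoot K M n σ a * kummerRoot K M n σ b := by
  obtain ⟨α, hα⟩ := exists_root_of_mem a
  obtain ⟨β, hβ⟩ := exists_root_of_mem b
  have hαβ : (α * β) ^ n = algebraMap K M (((a * b : kummerSubgroup K M n) : Kˣ) : K) := by
    simp [mul_pow, hα, hβ]
  apply kummerRoot_eq_of σ (a * b) hαβ
  rw [map_mul, kummerRoot_spec σ a hα, kummerRoot_spec σ b hβ]
  simp only [Subgroup.coe_mul, Units.val_mul, map_mul]
  ring

theorem kummerRoot_one_right (σ : M ≃ₐ[K] M) :
    kummerRoot K M n σ 1 = 1 := by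
  have h1 : (1 : M) ^ n = algebraMap K M (((1 : kummerSubgroup K M n) : Kˣ) : K) := by simp
  apply kummerRoot_eq_of σ 1 h1
  simp

theorem kummerRoot_mul_left (σ τ : M ≃ₐ[K] M) (a : kummerSubgroup K M n) :
    kummerRoot K M n (σ * τ) a = kummerRoot K M n σ a * kummerRoot K M n τ a := by
  obtain ⟨α, hα⟩ := exists_root_of_mem a
  apply kummerRoot_eq_of (σ * τ) a hα
  rw [AlgEquiv.mul_apply, kummerRoot_spec τ a hα, map_mul, AlgEquiv.commutes,
    kummerRoot_spec σ a hα]
  simp only [Subgroup.coe_mul, Units.val_mul, map_mul]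
  ring

theorem kummerRoot_one_left (a : kummerSubgroup K M n) :
    kummerRoot K M n 1 a = 1 := by
  obtain ⟨α, hα⟩ := exists_root_of_mem a
  apply kummerRoot_eq_of 1 a hα
  simp

variable (K M n) in
/-- The Kummer pairing `Gal(M/K) →* (Δ →* μ_n(K))`, `(σ, a) ↦ σ(α)/α` with `α ^ n = a`. -/
noncomputable def kummerPairing :
    (M ≃ₐ[K] M) →* (kummerSubgroup K M n →* rootsOfUnity n K) where
  toFun σ :=
    { toFun := kummerRoot K M n σ
      map_one' := kummerRoot_one_right σ
      map_mul' := kummerRoot_mul_right σ }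
  map_one' := by
    ext a
    simp [kummerRoot_one_left]
  map_mul' σ τ := by
    ext a
    simp [kummerRoot_mul_left]

@[simp]
theorem kummerPairing_apply (σ : M ≃ₐ[K] M) (a : kummerSubgroup K M n) :
    kummerPairing K M n σ a = kummerRoot K M n σ a := rfl

variable (K M n) in
/-- The flipped Kummer pairing `Δ →* (Gal(M/K) →* μ_n(K))`. -/
noncomputable def kummerDual :
    kummerSubgroup K M n →* ((M ≃ₐ[K] M) →* rootsOfUnity n K) :=
  (kummerPairing K M n).flip

@[simp]
theorem kummerDual_apply (σ : M ≃ₐ[K] M) (a : kummerSubgroup K M n) :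
    kummerDual K M n a σ = kummerRoot K M n σ a := rfl

end Pairing

section Galois

variable {K M : Type*} [Field K] [Field M] [Algebra K M] {n : ℕ} [NeZero n]
  [HasEnoughRootsOfUnity K n]

/-- The pairing is trivial on `n`-th powers. -/
theorem kummerRoot_eq_one_of_mem_powSubgroup (σ : M ≃ₐ[K] M) (a : kummerSubgroup K M n)
    (ha : (a : Kˣ) ∈ powSubgroup K n) : kummerRoot K M n σ a = 1 := by
  obtain ⟨b, hb⟩ := ha
  have hβ : (algebraMap K M (b : K)) ^ n = algebraMap K M ((a : Kˣ) : K) := by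
    rw [← map_pow, ← hb]; simp
  rw [kummerRoot_eq_one_iff σ a hβ, AlgEquiv.commutes]

/-- For a Galois extension (possibly infinite), the right kernel of the Kummer pairing is
`Kˣ ^ n`. -/
theorem kummerDual_eq_one_iff [IsGalois K M] (a : kummerSubgroup K M n) :
    kummerDual K M n a = 1 ↔ (a : Kˣ) ∈ powSubgroup K n := by
  constructor
  · intro h
    obtain ⟨β, hβ⟩ := exists_root_of_mem a
    have hfix : ∀ σ : M ≃ₐ[K] M, σ β = β := fun σ => by
      rw [← kummerRoot_eq_one_iff σ a hβ, ← kummerDual_apply, h]; rfl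
    obtain ⟨b, rfl⟩ := (InfiniteGalois.mem_range_algebraMap_iff_fixed β).2 hfix
    rw [mem_powSubgroup_iff']
    refine ⟨b, (algebraMap K M).injective ?_⟩
    rw [map_pow, hβ]
  · intro h
    ext σ
    rw [kummerDual_apply, kummerRoot_eq_one_of_mem_powSubgroup σ a h]
    rfl

theorem kummerDual_ker [IsGalois K M] :
    (kummerDual K M n).ker = (powSubgroup K n).subgroupOf (kummerSubgroup K M n) := by
  ext a
  rw [MonoidHom.mem_ker, kummerDual_eq_one_iff, Subgroup.mem_subgroupOf]

/-- **Kummer theory, Hilbert 90 step**: for a finite Galois extension, every character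
`Gal(M/K) → μ_n(K)` is of the form `σ ↦ σ(α)/α` with `α ^ n ∈ K`. -/
theorem kummerDual_surjective [FiniteDimensional K M] [IsGalois K M] :
    Function.Surjective (kummerDual K M n) := by
  intro χ
  let f : (M ≃ₐ[K] M) → Mˣ := fun σ => Units.map (algebraMap K M : K →* M) (χ σ : Kˣ)
  have hf : groupCohomology.IsMulCocycle₁ f := by
    intro g h
    simp only [f, map_mul, AlgEquiv.smul_units_def]
    ext
    simp [mul_comm]
  obtain ⟨β, hβ⟩ := groupCohomology.isMulCoboundary₁_of_isMulCocycle₁_of_aut_to_units f hf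
  have hβ' : ∀ σ : M ≃ₐ[K] M, σ (β : M) = algebraMap K M ((χ σ : Kˣ) : K) * β := by
    intro σ
    have := congrArg Units.val (hβ σ)
    simp only [f, AlgEquiv.smul_units_def, Units.val_div_eq_div_val, Units.coe_map,
      MonoidHom.coe_coe] at this
    rw [div_eq_iff β.ne_zero] at this
    simpa using this
  have hfix : ∀ σ : M ≃ₐ[K] M, σ ((β : M) ^ n) = (β : M) ^ n := by
    intro σ
    rw [map_pow, hβ' σ, mul_pow, ← map_pow]
    have : ((χ σ : Kˣ) : K) ^ n = 1 := by
      have h := (mem_rootsOfUnity _ _).1 (χ σ).2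
      have := congrArg Units.val h
      simpa using this
    rw [this, map_one, one_mul]
  obtain ⟨a, ha⟩ := (InfiniteGalois.mem_range_algebraMap_iff_fixed ((β : M) ^ n)).2 hfix
  have ha0 : a ≠ 0 := by
    rintro rfl
    rw [map_zero] at ha
    exact pow_ne_zero n β.ne_zero ha.symm
  have haΔ : Units.mk0 a ha0 ∈ kummerSubgroup K M n :=
    mem_kummerSubgroup_iff'.2 ⟨β, by simp [ha]⟩
  refine ⟨⟨Units.mk0 a ha0, haΔ⟩, ?_⟩
  ext1 σ
  rw [kummerDual_apply]
  exact kummerRoot_eq_of σ _ (β := (β : M)) (by simp [ha]) (hβ' σ)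

/-- **Kummer theory**: for a finite Galois extension `M / K` (with `μ_n ⊆ K`),
`Δ / Kˣ^n ≃ Hom(Gal(M/K), μ_n)` where `Δ = Kˣ ∩ Mˣ^n`. -/
noncomputable def kummerQuotientEquiv [FiniteDimensional K M] [IsGalois K M] :
    (kummerSubgroup K M n ⧸ (kummerDual K M n).ker) ≃* ((M ≃ₐ[K] M) →* rootsOfUnity n K) :=
  QuotientGroup.quotientKerEquivOfSurjective _ kummerDual_surjective

theorem relIndex_powSubgroup_kummerSubgroup [FiniteDimensional K M] [IsGalois K M] :
    (powSubgroup K n).relIndex (kummerSubgroup K M n) =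
      Nat.card ((M ≃ₐ[K] M) →* rootsOfUnity n K) := by
  rw [Subgroup.relIndex, ← kummerDual_ker, Subgroup.index_ker,
    MonoidHom.range_eq_top.2 kummerDual_surjective]
  exact Nat.card_congr Subgroup.topEquiv.toEquiv

end Galois

section Duality

variable (K : Type*) [Field K] (n : ℕ) [NeZero n] [HasEnoughRootsOfUnity K n]

/-- For a group killed by `n`, characters with values in `Kˣ` are the same as characters with
values in `μ_n(K)`. -/
def homRootsOfUnityEquiv (G : Type*) [Group G] (hexp : ∀ g : G, g ^ n = 1) :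
    (G →* rootsOfUnity n K) ≃ (G →* Kˣ) where
  toFun χ := (rootsOfUnity n K).subtype.comp χ
  invFun ψ := ψ.codRestrict (rootsOfUnity n K) (fun g => by
    rw [mem_rootsOfUnity, ← map_pow, hexp, map_one])
  left_inv χ := by ext; rfl
  right_inv ψ := by ext; rfl

/-- A finite abelian group killed by `n` has as many `μ_n(K)`-valued characters as elements. -/
theorem card_hom_rootsOfUnity (G : Type*) [Group G] [Finite G]
    (hcomm : ∀ a b : G, a * b = b * a) (hexp : ∀ g : G, g ^ n = 1) :
    Nat.card (G →* rootsOfUnity n K) = Nat.card G := by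
  rw [Nat.card_congr (homRootsOfUnityEquiv K n G hexp)]
  letI : CommGroup G := { (inferInstance : Group G) with mul_comm := hcomm }
  haveI : HasEnoughRootsOfUnity K (Monoid.exponent G) :=
    HasEnoughRootsOfUnity.of_dvd K (Monoid.exponent_dvd_of_forall_pow_eq_one hexp)
  exact CommGroup.card_monoidHom_of_hasEnoughRootsOfUnity G K

/-- `μ_n(K)`-valued characters separate the points of a finite abelian group killed by `n`. -/
theorem exists_hom_rootsOfUnity_ne_one (G : Type*) [Group G] [Finite G]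
    (hcomm : ∀ a b : G, a * b = b * a) (hexp : ∀ g : G, g ^ n = 1) {g : G} (hg : g ≠ 1) :
    ∃ χ : G →* rootsOfUnity n K, χ g ≠ 1 := by
  letI : CommGroup G := { (inferInstance : Group G) with mul_comm := hcomm }
  haveI : HasEnoughRootsOfUnity K (Monoid.exponent G) :=
    HasEnoughRootsOfUnity.of_dvd K (Monoid.exponent_dvd_of_forall_pow_eq_one hexp)
  obtain ⟨φ, hφ⟩ := CommGroup.exists_apply_ne_one_of_hasEnoughRootsOfUnity G K hg
  refine ⟨(homRootsOfUnityEquiv K n G hexp).symm φ, fun h => hφ ?_⟩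
  have := congrArg (fun x : rootsOfUnity n K => (x : Kˣ)) h
  simpa [homRootsOfUnityEquiv] using this

instance finite_hom_rootsOfUnity (G : Type*) [Group G] [Finite G] :
    Finite (G →* rootsOfUnity n K) :=
  Finite.of_injective (fun f => (f : G → rootsOfUnity n K)) DFunLike.coe_injective

end Duality

section Abelian

variable {K M : Type*} [Field K] [Field M] [Algebra K M] {n : ℕ} [NeZero n]
  [HasEnoughRootsOfUnity K n]

/-- **Kummer theory, degree formula** (Galois side): if `M / K` is finite Galois with abelian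
Galois group killed by `n`, then `[Δ : Kˣ^n] = [M : K]`. -/
theorem relIndex_powSubgroup_kummerSubgroup_eq_finrank [FiniteDimensional K M] [IsGalois K M]
    (hcomm : ∀ σ τ : M ≃ₐ[K] M, σ * τ = τ * σ) (hexp : ∀ σ : M ≃ₐ[K] M, σ ^ n = 1) :
    (powSubgroup K n).relIndex (kummerSubgroup K M n) = Module.finrank K M := by
  rw [relIndex_powSubgroup_kummerSubgroup, card_hom_rootsOfUnity K n _ hcomm hexp,
    IsGalois.card_aut_eq_finrank]

/-- **Kummer theory, left nondegeneracy** (Galois side): if `M / K` is finite Galois with abelian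
Galois group killed by `n`, an automorphism fixing all `n`-th roots of elements of `K` is
trivial. -/
theorem exists_kummerRoot_ne_one [FiniteDimensional K M] [IsGalois K M]
    (hcomm : ∀ σ τ : M ≃ₐ[K] M, σ * τ = τ * σ) (hexp : ∀ σ : M ≃ₐ[K] M, σ ^ n = 1)
    {σ : M ≃ₐ[K] M} (hσ : σ ≠ 1) :
    ∃ a : kummerSubgroup K M n, kummerRoot K M n σ a ≠ 1 := by
  obtain ⟨χ, hχ⟩ := exists_hom_rootsOfUnity_ne_one K n _ hcomm hexp hσ
  obtain ⟨a, rfl⟩ := kummerDual_surjective (K := K) (M := M) (n := n) χ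
  exact ⟨a, hχ⟩

theorem kummerPairing_injective [FiniteDimensional K M] [IsGalois K M]
    (hcomm : ∀ σ τ : M ≃ₐ[K] M, σ * τ = τ * σ) (hexp : ∀ σ : M ≃ₐ[K] M, σ ^ n = 1) :
    Function.Injective (kummerPairing K M n) := by
  rw [injective_iff_map_eq_one]
  intro σ hσ
  by_contra hne
  obtain ⟨a, ha⟩ := exists_kummerRoot_ne_one hcomm hexp hne
  apply ha
  rw [← kummerPairing_apply, hσ]
  rfl

/-- The set of all `n`-th roots in `M` of elements of a subgroup `A ≤ Kˣ`. -/
def rootSetOf (M : Type*) [Field M] [Algebra K M] (n : ℕ) (A : Subgroup Kˣ) : Set M :=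
  {β : M | ∃ a ∈ A, β ^ n = algebraMap K M ((a : Kˣ) : K)}

/-- **Every abelian extension of exponent `n` is a Kummer extension**: if `M / K` is finite
Galois with abelian Galois group killed by `n`, then `M` is generated by `n`-th roots of
elements of `K`. -/
theorem adjoin_rootSetOf_kummerSubgroup_eq_top [FiniteDimensional K M] [IsGalois K M]
    (hcomm : ∀ σ τ : M ≃ₐ[K] M, σ * τ = τ * σ) (hexp : ∀ σ : M ≃ₐ[K] M, σ ^ n = 1) :
    IntermediateField.adjoin K (rootSetOf M n (kummerSubgroup K M n)) = ⊤ := by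
  set F := IntermediateField.adjoin K (rootSetOf M n (kummerSubgroup K M n)) with hF
  have h1 : F.fixingSubgroup = ⊥ := by
    rw [eq_bot_iff]
    intro σ hσ
    rw [Subgroup.mem_bot]
    by_contra hne
    obtain ⟨a, ha⟩ := exists_kummerRoot_ne_one hcomm hexp hne
    apply ha
    obtain ⟨β, hβ⟩ := exists_root_of_mem a
    rw [kummerRoot_eq_one_iff σ a hβ]
    exact (IntermediateField.mem_fixingSubgroup_iff F σ).1 hσ β
      (IntermediateField.subset_adjoin K _ ⟨a, a.2, hβ⟩)
  rw [← IsGalois.fixedField_fixingSubgroup F, h1, IntermediateField.fixedField_bot]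

end Abelian

section Generated

variable {K M : Type*} [Field K] [Field M] [Algebra K M] {n : ℕ} [NeZero n]
  [HasEnoughRootsOfUnity K n] {A : Subgroup Kˣ}

theorem natCast_ne_zero_of_hasEnoughRootsOfUnity (K : Type*) [Field K] (n : ℕ) [NeZero n]
    [HasEnoughRootsOfUnity K n] : (n : K) ≠ 0 := by
  obtain ⟨ζ₀, hζ₀⟩ := HasEnoughRootsOfUnity.exists_primitiveRoot K n
  exact (hζ₀.neZero').ne

theorem rootSetOf_spec {β : M} (hβ : β ∈ rootSetOf M n A) :
    IsIntegral K β ∧ ((minpoly K β).map (algebraMap K M)).Splits ∧ IsSeparable K β := by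
  obtain ⟨a, -, ha⟩ := hβ
  obtain ⟨ζ₀, hζ₀⟩ := HasEnoughRootsOfUnity.exists_primitiveRoot K n
  have hM : IsPrimitiveRoot (algebraMap K M ζ₀) n :=
    hζ₀.map_of_injective (algebraMap K M).injective
  have hroot : Polynomial.aeval β (X ^ n - C ((a : Kˣ) : K)) = 0 := by
    simp [ha]
  have hmonic : (X ^ n - C ((a : Kˣ) : K)).Monic := monic_X_pow_sub_C _ (NeZero.ne n)
  have hint : IsIntegral K β := ⟨_, hmonic, hroot⟩
  have hdvd : minpoly K β ∣ X ^ n - C ((a : Kˣ) : K) := minpoly.dvd K β hroot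
  have hsplit : ((X ^ n - C ((a : Kˣ) : K)).map (algebraMap K M)).Splits := by
    have := X_pow_sub_C_splits_of_isPrimitiveRoot hM ha
    simpa using this
  have hsep : (X ^ n - C ((a : Kˣ) : K)).Separable :=
    separable_X_pow_sub_C _ (natCast_ne_zero_of_hasEnoughRootsOfUnity K n) a.ne_zero
  refine ⟨hint, ?_, hsep.of_dvd hdvd⟩
  exact hsplit.of_dvd (Polynomial.map_ne_zero hmonic.ne_zero) (Polynomial.map_dvd _ hdvd)

/-- An extension generated by `n`-th roots of elements of `K` (where `μ_n ⊆ K`) is Galois. -/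
theorem isGalois_of_adjoin_rootSetOf_eq_top
    (hgen : IntermediateField.adjoin K (rootSetOf M n A) = ⊤) : IsGalois K M := by
  have halg : Algebra.IsAlgebraic K (IntermediateField.adjoin K (rootSetOf M n A)) :=
    IntermediateField.isAlgebraic_adjoin fun x hx => (rootSetOf_spec hx).1
  have hint : ∀ x : M, IsIntegral K x := by
    intro x
    have hx : x ∈ IntermediateField.adjoin K (rootSetOf M n A) := hgen ▸ IntermediateField.mem_top
    have := (halg.isAlgebraic ⟨x, hx⟩).isIntegral
    exact (isIntegral_algHom_iff (IntermediateField.adjoin K (rootSetOf M n A)).val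
      Subtype.val_injective).2 this
  have hnormal : Normal K M := normal_iff.2 fun x =>
    ⟨hint x, IntermediateField.splits_of_mem_adjoin K M
      (fun y hy => ⟨(rootSetOf_spec hy).1, (rootSetOf_spec hy).2.1⟩)
      (hgen ▸ IntermediateField.mem_top)⟩
  have hsep' : Algebra.IsSeparable K (IntermediateField.adjoin K (rootSetOf M n A)) :=
    (IntermediateField.isSeparable_adjoin_iff_isSeparable K M).2
      fun x hx => (rootSetOf_spec hx).2.2
  have hsep : Algebra.IsSeparable K M := by
    rw [hgen] at hsep'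
    exact (IntermediateField.isSeparable_top K M).1 hsep'
  exact ⟨⟩

/-- An automorphism fixing all the generating roots is trivial. -/
theorem eq_one_of_forall_rootSetOf
    (hgen : IntermediateField.adjoin K (rootSetOf M n A) = ⊤) {σ : M ≃ₐ[K] M}
    (hσ : ∀ β ∈ rootSetOf M n A, σ β = β) : σ = 1 := by
  have h1 : IntermediateField.adjoin K (rootSetOf M n A) ≤
      IntermediateField.fixedField (Subgroup.zpowers σ) := by
    rw [IntermediateField.adjoin_le_iff]
    intro β hβ
    rw [SetLike.mem_coe, IntermediateField.mem_fixedField_iff]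
    intro τ hτ
    obtain ⟨k, rfl⟩ := Subgroup.mem_zpowers_iff.1 hτ
    have hfix : σ ∈ MulAction.stabilizer (M ≃ₐ[K] M) β := hσ β hβ
    exact (zpow_mem hfix k : σ ^ k ∈ MulAction.stabilizer (M ≃ₐ[K] M) β)
  ext x
  have hx : x ∈ IntermediateField.fixedField (Subgroup.zpowers σ) :=
    h1 (hgen ▸ IntermediateField.mem_top)
  exact (IntermediateField.mem_fixedField_iff _ _).1 hx σ (Subgroup.mem_zpowers σ)

variable (M n) in
/-- The Kummer pairing restricted to a subgroup `A` of the Kummer group. -/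
noncomputable def kummerPairingOn (hA : A ≤ kummerSubgroup K M n) :
    (M ≃ₐ[K] M) →* (A →* rootsOfUnity n K) where
  toFun σ := (kummerPairing K M n σ).comp (Subgroup.inclusion hA)
  map_one' := by ext; simp
  map_mul' σ τ := by ext; simp

@[simp]
theorem kummerPairingOn_apply (hA : A ≤ kummerSubgroup K M n) (σ : M ≃ₐ[K] M) (a : A) :
    kummerPairingOn M n hA σ a = kummerRoot K M n σ (Subgroup.inclusion hA a) := rfl

theorem kummerPairingOn_injective (hA : A ≤ kummerSubgroup K M n)
    (hgen : IntermediateField.adjoin K (rootSetOf M n A) = ⊤) :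
    Function.Injective (kummerPairingOn M n hA) := by
  rw [injective_iff_map_eq_one]
  intro σ hσ
  apply eq_one_of_forall_rootSetOf hgen
  rintro β ⟨a, ha, hβ⟩
  have h1 : kummerRoot K M n σ (Subgroup.inclusion hA ⟨a, ha⟩) = 1 := by
    rw [← kummerPairingOn_apply, hσ]; rfl
  exact (kummerRoot_eq_one_iff σ _ (by simpa using hβ)).1 h1

/-- The Galois group of a Kummer extension is abelian. -/
theorem mul_comm_of_adjoin_rootSetOf_eq_top (hA : A ≤ kummerSubgroup K M n)
    (hgen : IntermediateField.adjoin K (rootSetOf M n A) = ⊤) (σ τ : M ≃ₐ[K] M) :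
    σ * τ = τ * σ := by
  apply kummerPairingOn_injective hA hgen
  rw [map_mul, map_mul, mul_comm]

/-- The Galois group of a Kummer extension is killed by `n`. -/
theorem pow_eq_one_of_adjoin_rootSetOf_eq_top (hA : A ≤ kummerSubgroup K M n)
    (hgen : IntermediateField.adjoin K (rootSetOf M n A) = ⊤) (σ : M ≃ₐ[K] M) :
    σ ^ n = 1 := by
  apply kummerPairingOn_injective hA hgen
  rw [map_pow, map_one]
  ext a
  have h := (mem_rootsOfUnity _ _).1 (kummerPairingOn M n hA σ a).2
  simpa using congrArg Units.val h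

variable (M n) in
/-- The Kummer pairing `Gal(M/K) →* (A ⧸ Kˣ^n →* μ_n(K))`. -/
noncomputable def kummerPairingQuot (hA : A ≤ kummerSubgroup K M n) :
    (M ≃ₐ[K] M) →* ((A ⧸ (powSubgroup K n).subgroupOf A) →* rootsOfUnity n K) where
  toFun σ := QuotientGroup.lift _ (kummerPairingOn M n hA σ) (by
    intro a ha
    rw [Subgroup.mem_subgroupOf] at ha
    exact kummerRoot_eq_one_of_mem_powSubgroup σ _ ha)
  map_one' := by
    refine MonoidHom.ext fun x => ?_
    induction x using QuotientGroup.induction_on with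
    | H a =>
      change kummerPairingOn M n hA 1 a = 1
      rw [map_one]; rfl
  map_mul' σ τ := by
    refine MonoidHom.ext fun x => ?_
    induction x using QuotientGroup.induction_on with
    | H a =>
      change kummerPairingOn M n hA (σ * τ) a =
        kummerPairingOn M n hA σ a * kummerPairingOn M n hA τ a
      rw [map_mul]; rfl

@[simp]
theorem kummerPairingQuot_mk (hA : A ≤ kummerSubgroup K M n) (σ : M ≃ₐ[K] M) (a : A) :
    kummerPairingQuot M n hA σ (QuotientGroup.mk a) =
      kummerRoot K M n σ (Subgroup.inclusion hA a) := rfl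

theorem kummerPairingQuot_injective (hA : A ≤ kummerSubgroup K M n)
    (hgen : IntermediateField.adjoin K (rootSetOf M n A) = ⊤) :
    Function.Injective (kummerPairingQuot M n hA) := by
  intro σ τ h
  apply kummerPairingOn_injective hA hgen
  ext1 a
  have := DFunLike.congr_fun h (QuotientGroup.mk a)
  simpa using this

end Generated

section Main

variable {K M : Type*} [Field K] [Field M] [Algebra K M] {n : ℕ} [NeZero n]
  [HasEnoughRootsOfUnity K n] {A : Subgroup Kˣ}

theorem quotient_powSubgroup_pow_eq_one (A : Subgroup Kˣ) (n : ℕ)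
    (x : A ⧸ (powSubgroup K n).subgroupOf A) : x ^ n = 1 := by
  induction x using QuotientGroup.induction_on with
  | H a =>
    rw [← QuotientGroup.mk_pow, QuotientGroup.eq_one_iff, Subgroup.mem_subgroupOf]
    exact ⟨(a : Kˣ), by simp⟩

theorem card_hom_quotient_powSubgroup (hfin : (powSubgroup K n).relIndex A ≠ 0) :
    Nat.card ((A ⧸ (powSubgroup K n).subgroupOf A) →* rootsOfUnity n K) =
      (powSubgroup K n).relIndex A := by
  haveI : Finite (A ⧸ (powSubgroup K n).subgroupOf A) :=
    Subgroup.index_ne_zero_iff_finite.1 hfin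
  rw [card_hom_rootsOfUnity K n _ (fun a b => mul_comm a b)
    (quotient_powSubgroup_pow_eq_one A n)]
  rfl

theorem finite_aut_of_adjoin_rootSetOf_eq_top (hA : A ≤ kummerSubgroup K M n)
    (hgen : IntermediateField.adjoin K (rootSetOf M n A) = ⊤)
    (hfin : (powSubgroup K n).relIndex A ≠ 0) : Finite (M ≃ₐ[K] M) := by
  haveI : Finite (A ⧸ (powSubgroup K n).subgroupOf A) :=
    Subgroup.index_ne_zero_iff_finite.1 hfin
  exact Finite.of_injective _ (kummerPairingQuot_injective hA hgen)

theorem card_aut_le_relIndex (hA : A ≤ kummerSubgroup K M n)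
    (hgen : IntermediateField.adjoin K (rootSetOf M n A) = ⊤)
    (hfin : (powSubgroup K n).relIndex A ≠ 0) :
    Nat.card (M ≃ₐ[K] M) ≤ (powSubgroup K n).relIndex A := by
  haveI : Finite (A ⧸ (powSubgroup K n).subgroupOf A) :=
    Subgroup.index_ne_zero_iff_finite.1 hfin
  rw [← card_hom_quotient_powSubgroup hfin]
  exact Nat.card_le_card_of_injective _ (kummerPairingQuot_injective hA hgen)

/-- A Kummer extension `K(A^{1/n})` with `[A : Kˣ^n] < ∞` is finite. -/
theorem finiteDimensional_of_adjoin_rootSetOf_eq_top (hA : A ≤ kummerSubgroup K M n)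
    (hgen : IntermediateField.adjoin K (rootSetOf M n A) = ⊤)
    (hfin : (powSubgroup K n).relIndex A ≠ 0) : FiniteDimensional K M := by
  haveI := isGalois_of_adjoin_rootSetOf_eq_top hgen
  haveI := finite_aut_of_adjoin_rootSetOf_eq_top hA hgen hfin
  exact IsGaloisGroup.finiteDimensional (M ≃ₐ[K] M) K M

/-- **Kummer theory, main theorem** (group side): if `Kˣ^n ≤ A` with `[A : Kˣ^n] < ∞` and
`M = K(A^{1/n})`, then the elements of `K` which are `n`-th powers in `M` are exactly those
of `A`. -/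
theorem kummerSubgroup_eq_of_adjoin_rootSetOf_eq_top (hPA : powSubgroup K n ≤ A)
    (hA : A ≤ kummerSubgroup K M n)
    (hgen : IntermediateField.adjoin K (rootSetOf M n A) = ⊤)
    (hfin : (powSubgroup K n).relIndex A ≠ 0) : kummerSubgroup K M n = A := by
  haveI := isGalois_of_adjoin_rootSetOf_eq_top hgen
  haveI := finiteDimensional_of_adjoin_rootSetOf_eq_top hA hgen hfin
  have h1 := relIndex_powSubgroup_kummerSubgroup_eq_finrank (K := K) (M := M) (n := n)
    (mul_comm_of_adjoin_rootSetOf_eq_top hA hgen) (pow_eq_one_of_adjoin_rootSetOf_eq_top hA hgen)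
  have h2 := card_aut_le_relIndex hA hgen hfin
  rw [IsGalois.card_aut_eq_finrank] at h2
  have h3 := Subgroup.relIndex_mul_relIndex _ _ _ hPA hA
  have hpos : 0 < Module.finrank K M := Module.finrank_pos
  have h4 : A.relIndex (kummerSubgroup K M n) = 1 := by
    rw [h1] at h3
    have h5 : (powSubgroup K n).relIndex A * A.relIndex (kummerSubgroup K M n) ≤
        (powSubgroup K n).relIndex A * 1 := by
      rw [h3, mul_one]; exact h2
    have h6 := Nat.le_of_mul_le_mul_left h5 (Nat.pos_of_ne_zero hfin)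
    have h7 : A.relIndex (kummerSubgroup K M n) ≠ 0 := by
      intro h0
      rw [h0, mul_zero] at h3
      omega
    omega
  exact le_antisymm (Subgroup.relIndex_eq_one.1 h4) hA

/-- **Kummer theory, degree formula**: if `Kˣ^n ≤ A` with `[A : Kˣ^n] < ∞` and
`M = K(A^{1/n})`, then `[M : K] = [A : Kˣ^n]`. -/
theorem finrank_eq_relIndex_of_adjoin_rootSetOf_eq_top (hPA : powSubgroup K n ≤ A)
    (hA : A ≤ kummerSubgroup K M n)
    (hgen : IntermediateField.adjoin K (rootSetOf M n A) = ⊤)
    (hfin : (powSubgroup K n).relIndex A ≠ 0) :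
    Module.finrank K M = (powSubgroup K n).relIndex A := by
  haveI := isGalois_of_adjoin_rootSetOf_eq_top hgen
  haveI := finiteDimensional_of_adjoin_rootSetOf_eq_top hA hgen hfin
  have h1 := relIndex_powSubgroup_kummerSubgroup_eq_finrank (K := K) (M := M) (n := n)
    (mul_comm_of_adjoin_rootSetOf_eq_top hA hgen) (pow_eq_one_of_adjoin_rootSetOf_eq_top hA hgen)
  rw [← h1, kummerSubgroup_eq_of_adjoin_rootSetOf_eq_top hPA hA hgen hfin]

/-- **Kummer theory, perfectness**: for `M = K(A^{1/n})` with `Kˣ^n ≤ A`, `[A : Kˣ^n] < ∞`,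
the Kummer pairing induces a bijection `Gal(M/K) → Hom(A ⧸ Kˣ^n, μ_n)`. -/
theorem kummerPairingQuot_bijective (hPA : powSubgroup K n ≤ A)
    (hA : A ≤ kummerSubgroup K M n)
    (hgen : IntermediateField.adjoin K (rootSetOf M n A) = ⊤)
    (hfin : (powSubgroup K n).relIndex A ≠ 0) :
    Function.Bijective (kummerPairingQuot M n hA) := by
  haveI := isGalois_of_adjoin_rootSetOf_eq_top hgen
  haveI := finiteDimensional_of_adjoin_rootSetOf_eq_top hA hgen hfin
  haveI : Finite (A ⧸ (powSubgroup K n).subgroupOf A) :=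
    Subgroup.index_ne_zero_iff_finite.1 hfin
  have hinj := kummerPairingQuot_injective hA hgen
  refine (Nat.bijective_iff_injective_and_card _).2 ⟨hinj, ?_⟩
  rw [card_hom_quotient_powSubgroup hfin, IsGalois.card_aut_eq_finrank,
    finrank_eq_relIndex_of_adjoin_rootSetOf_eq_top hPA hA hgen hfin]

/-- **Kummer theory, perfectness (dual side)**: for `M = K(A^{1/n})` with `Kˣ^n ≤ A`,
`[A : Kˣ^n] < ∞`, every character `Gal(M/K) → μ_n` is `σ ↦ σ(α)/α` for some `α` with
`α ^ n ∈ A`. -/
theorem exists_mem_kummerRoot_eq (hPA : powSubgroup K n ≤ A)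
    (hA : A ≤ kummerSubgroup K M n)
    (hgen : IntermediateField.adjoin K (rootSetOf M n A) = ⊤)
    (hfin : (powSubgroup K n).relIndex A ≠ 0) (χ : (M ≃ₐ[K] M) →* rootsOfUnity n K) :
    ∃ a : A, ∀ σ : M ≃ₐ[K] M, kummerRoot K M n σ (Subgroup.inclusion hA a) = χ σ := by
  haveI := isGalois_of_adjoin_rootSetOf_eq_top hgen
  haveI := finiteDimensional_of_adjoin_rootSetOf_eq_top hA hgen hfin
  obtain ⟨a, rfl⟩ := kummerDual_surjective (K := K) (M := M) (n := n) χ
  have ha : (a : Kˣ) ∈ A := by
    rw [← kummerSubgroup_eq_of_adjoin_rootSetOf_eq_top hPA hA hgen hfin]; exact a.2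
  exact ⟨⟨a, ha⟩, fun σ => rfl⟩

end Main

section KummerField

variable {K L : Type*} [Field K] [Field L] [Algebra K L] {n : ℕ} [NeZero n]
  [HasEnoughRootsOfUnity K n] {A : Subgroup Kˣ}

variable (L n) in
/-- The Kummer extension `K(A^{1/n})` inside an ambient extension `L / K`: generated by all
`n`-th roots in `L` of elements of `A`. -/
def kummerField (A : Subgroup Kˣ) : IntermediateField K L :=
  IntermediateField.adjoin K (rootSetOf L n A)

theorem mem_kummerField_of_pow_eq {β : L} {a : Kˣ} (ha : a ∈ A)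
    (hβ : β ^ n = algebraMap K L (a : K)) : β ∈ kummerField L n A :=
  IntermediateField.subset_adjoin K _ ⟨a, ha, hβ⟩

theorem kummerField_mono {A B : Subgroup Kˣ} (h : A ≤ B) :
    kummerField L n A ≤ kummerField L n B :=
  IntermediateField.adjoin.mono K _ _ fun _ ⟨a, ha, hβ⟩ => ⟨a, h ha, hβ⟩

theorem val_image_rootSetOf_kummerField :
    Subtype.val '' (rootSetOf (kummerField L n A) n A) = rootSetOf L n A := by
  ext β
  constructor
  · rintro ⟨β', ⟨a, ha, hβ'⟩, rfl⟩
    refine ⟨a, ha, ?_⟩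
    have := congrArg Subtype.val hβ'
    simpa using this
  · rintro ⟨a, ha, hβ⟩
    refine ⟨⟨β, mem_kummerField_of_pow_eq ha hβ⟩, ⟨a, ha, ?_⟩, rfl⟩
    apply Subtype.ext
    simpa using hβ

theorem adjoin_rootSetOf_kummerField_eq_top :
    IntermediateField.adjoin K (rootSetOf (kummerField L n A) n A) = ⊤ := by
  apply IntermediateField.lift_injective
  rw [IntermediateField.lift_adjoin, IntermediateField.lift_top,
    val_image_rootSetOf_kummerField]
  rfl

theorem le_kummerSubgroup_kummerField (hA : A ≤ kummerSubgroup K L n) :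
    A ≤ kummerSubgroup K (kummerField L n A) n := by
  intro a ha
  obtain ⟨β, hβ⟩ := mem_kummerSubgroup_iff'.1 (hA ha)
  refine mem_kummerSubgroup_iff'.2 ⟨⟨β, mem_kummerField_of_pow_eq ha hβ⟩, ?_⟩
  apply Subtype.ext
  simpa using hβ

theorem kummerSubgroup_kummerField_le :
    kummerSubgroup K (kummerField L n A) n ≤ kummerSubgroup K L n := by
  intro a ha
  obtain ⟨β, hβ⟩ := mem_kummerSubgroup_iff'.1 ha
  refine mem_kummerSubgroup_iff'.2 ⟨(β : L), ?_⟩
  have := congrArg Subtype.val hβ
  simpa using this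

instance isGalois_kummerField : IsGalois K (kummerField L n A) :=
  isGalois_of_adjoin_rootSetOf_eq_top adjoin_rootSetOf_kummerField_eq_top

theorem finiteDimensional_kummerField (hA : A ≤ kummerSubgroup K L n)
    (hfin : (powSubgroup K n).relIndex A ≠ 0) : FiniteDimensional K (kummerField L n A) :=
  finiteDimensional_of_adjoin_rootSetOf_eq_top (le_kummerSubgroup_kummerField hA)
    adjoin_rootSetOf_kummerField_eq_top hfin

theorem mul_comm_aut_kummerField (hA : A ≤ kummerSubgroup K L n)
    (σ τ : kummerField L n A ≃ₐ[K] kummerField L n A) : σ * τ = τ * σ :=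
  mul_comm_of_adjoin_rootSetOf_eq_top (le_kummerSubgroup_kummerField hA)
    adjoin_rootSetOf_kummerField_eq_top σ τ

theorem pow_eq_one_aut_kummerField (hA : A ≤ kummerSubgroup K L n)
    (σ : kummerField L n A ≃ₐ[K] kummerField L n A) : σ ^ n = 1 :=
  pow_eq_one_of_adjoin_rootSetOf_eq_top (le_kummerSubgroup_kummerField hA)
    adjoin_rootSetOf_kummerField_eq_top σ

/-- **Kummer theory**: `Kˣ ∩ (K(A^{1/n})ˣ)^n = A` when `Kˣ^n ≤ A`, `[A : Kˣ^n] < ∞` and all
elements of `A` have `n`-th roots in `L`. -/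
theorem kummerSubgroup_kummerField (hPA : powSubgroup K n ≤ A) (hA : A ≤ kummerSubgroup K L n)
    (hfin : (powSubgroup K n).relIndex A ≠ 0) :
    kummerSubgroup K (kummerField L n A) n = A :=
  kummerSubgroup_eq_of_adjoin_rootSetOf_eq_top hPA (le_kummerSubgroup_kummerField hA)
    adjoin_rootSetOf_kummerField_eq_top hfin

/-- **Kummer theory**: `[K(A^{1/n}) : K] = [A : Kˣ^n]`. -/
theorem finrank_kummerField (hPA : powSubgroup K n ≤ A) (hA : A ≤ kummerSubgroup K L n)
    (hfin : (powSubgroup K n).relIndex A ≠ 0) :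
    Module.finrank K (kummerField L n A) = (powSubgroup K n).relIndex A :=
  finrank_eq_relIndex_of_adjoin_rootSetOf_eq_top hPA (le_kummerSubgroup_kummerField hA)
    adjoin_rootSetOf_kummerField_eq_top hfin

/-- An `n`-th root `β ∈ L` of `a ∈ Kˣ` lies in `K(A^{1/n})` iff `a ∈ A`. -/
theorem mem_kummerField_iff (hPA : powSubgroup K n ≤ A) (hA : A ≤ kummerSubgroup K L n)
    (hfin : (powSubgroup K n).relIndex A ≠ 0) {β : L} {a : Kˣ}
    (hβ : β ^ n = algebraMap K L (a : K)) : β ∈ kummerField L n A ↔ a ∈ A := by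
  refine ⟨fun h => ?_, fun h => mem_kummerField_of_pow_eq h hβ⟩
  rw [← kummerSubgroup_kummerField (L := L) hPA hA hfin]
  refine mem_kummerSubgroup_iff'.2 ⟨⟨β, h⟩, ?_⟩
  apply Subtype.ext
  simpa using hβ

/-- **Kummer correspondence, injectivity**: `A ↦ K(A^{1/n})` reflects inclusions. -/
theorem kummerField_le_iff {A B : Subgroup Kˣ} (hPB : powSubgroup K n ≤ B)
    (hA : A ≤ kummerSubgroup K L n) (hB : B ≤ kummerSubgroup K L n)
    (hfinB : (powSubgroup K n).relIndex B ≠ 0) :
    kummerField L n A ≤ kummerField L n B ↔ A ≤ B := by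
  refine ⟨fun h a ha => ?_, kummerField_mono⟩
  obtain ⟨β, hβ⟩ := mem_kummerSubgroup_iff'.1 (hA ha)
  exact (mem_kummerField_iff hPB hB hfinB hβ).1 (h (mem_kummerField_of_pow_eq ha hβ))

end KummerField

end Fermat.Agent.S55.H361
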